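/-
S17 row, G-DIV algebraic line (architect helper797), piece **DPRES** (helper247).

`stmtDPRES : StmtDPRES N L` — the coefficientwise derivation attached to a derivation `d` of `L`
preserves the function field `F_L = laurentBaseChange L (modularFunctionFieldFull N)`.
This is helper800's `coeffDer_mem_laurentBaseChange` in the frozen shape of `GDiv/Defs.lean`.
-/
import Mathlib
import Fermat.Agent.S17.GDiv.Defs
import Fermat.Agent.S17.H800.Der

set_option autoImplicit false

noncomputable section

open ModularCurve

namespace Fermat.Agent.S17.H247

open Fermat.Agent.S17.GDiv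

/-- **DPRES**: the coefficientwise derivation preserves `F_L`. -/
theorem stmtDPRES (N : ℕ) (L : Type) [Field L] [Algebra ℚ L] :
    StmtDPRES N L := by
  intro d f
  exact ⟨⟨Fermat.Agent.S17.H800.coeffDer d (f : LaurentSeries L),
    Fermat.Agent.S17.H800.coeffDer_mem_laurentBaseChange d (modularFunctionFieldFull N) f.2⟩,
    fun m => rfl⟩

end Fermat.Agent.S17.H247
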