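/-
S17 row, G-DIV algebraic line (architect helper797), piece **DEREX** (helper247).

`stmtDEREX : StmtDEREX L` (the frozen `StmtDEREX` does not depend on `N`) — enough derivations: if `K₁` is algebraically closed in `L`
(characteristic zero) and `x ∉ K₁`, some derivation of `L` kills `K₁` but not `x`.
Built on helper800's `exists_derivation_eq_one`.
-/
import Mathlib
import Fermat.Agent.S17.GDiv.Defs
import Fermat.Agent.S17.H800.Der

set_option autoImplicit false

noncomputable section

namespace Fermat.Agent.S17.H247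

open Fermat.Agent.S17.GDiv

/-- A derivation of `L` over a subfield, regarded as a `ℚ`-derivation. -/
theorem exists_ratDerivation_of_subfield {L : Type} [Field L] [Algebra ℚ L]
    (K₁ : Subfield L) (δ : Derivation K₁ L L) :
    ∃ d : Derivation ℚ L L, ∀ y : L, d y = δ y := by
  refine ⟨{ toLinearMap := (δ : L →+ L).toRatLinearMap
            map_one_eq_zero' := ?_
            leibniz' := ?_ }, fun y => rfl⟩
  · show δ 1 = 0
    exact δ.map_one_eq_zero
  · intro a b
    show δ (a * b) = a • δ b + b • δ a
    exact δ.leibniz a b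

/-- **DEREX** in general form: `K₁ ⊆ L` fields of characteristic zero, `K₁` algebraically closed
in `L`, `x ∉ K₁`: there is a derivation of `L` killing `K₁` with `d x = 1`. -/
theorem exists_derivation_killing_subfield {L : Type} [Field L] [Algebra ℚ L] [CharZero L]
    (K₁ : Subfield L) (hK : ∀ x : L, IsAlgebraic K₁ x → x ∈ K₁) (x : L) (hx : x ∉ K₁) :
    ∃ d : Derivation ℚ L L, (∀ a ∈ K₁, d a = 0) ∧ d x = 1 := by
  have : CharZero K₁ := (algebraMap K₁ L).charZero
  have htr : Transcendental K₁ x := fun h => hx (hK x h)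
  obtain ⟨δ, hδ⟩ := Fermat.Agent.S17.H800.exists_derivation_eq_one (K := K₁) (L := L) htr
  obtain ⟨d, hd⟩ := exists_ratDerivation_of_subfield K₁ δ
  refine ⟨d, fun a ha => ?_, by rw [hd, hδ]⟩
  rw [hd]
  exact δ.map_algebraMap (⟨a, ha⟩ : K₁)

/-- **DEREX**: enough derivations. -/
theorem stmtDEREX (L : Type) [Field L] [Algebra ℚ L] [CharZero L] :
    StmtDEREX L := by
  intro K₁ hK x hx
  obtain ⟨d, hd, h1⟩ := exists_derivation_killing_subfield K₁ hK x hx
  exact ⟨d, hd, by rw [h1]; exact one_ne_zero⟩

end Fermat.Agent.S17.H247
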